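/-
T1-D (D-a): port of Lib/S24/ModRing.lean to a general algebraically closed coefficient field `k ⊆ ℂ`.
-/
import Mathlib
import Fermat.Agent.Lib.S24.ModRing

set_option autoImplicit false
set_option linter.unusedSectionVars false
set_option linter.style.haveILetI false
set_option linter.unusedVariables false

namespace Fermat.Agent.T1.KMod

open Fermat.Agent.S24Lib
open UpperHalfPlane Filter Topology Matrix MatrixGroups
open scoped Manifold
open Fermat.Agent.S22Lib (intGL)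
open Fermat.Agent.ES (IsQLaurentable qLaurent)

variable (𝕜 : Type) [Field 𝕜] [IsAlgClosed 𝕜] [Algebra 𝕜 ℂ]

/-- the image of `𝕜` in `ℂ` -/
noncomputable def kImg : Subfield ℂ := (algebraMap 𝕜 ℂ).fieldRange

theorem mem_kImg_iff {z : ℂ} : z ∈ kImg 𝕜 ↔ ∃ a : 𝕜, algebraMap 𝕜 ℂ a = z := Iff.rfl

theorem algebraMap_mem_kImg (a : 𝕜) : algebraMap 𝕜 ℂ a ∈ kImg 𝕜 := ⟨a, rfl⟩

/-- `𝕜` has characteristic zero -/
theorem charZero_k : CharZero 𝕜 := (algebraMap 𝕜 ℂ).charZero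

/-- roots of unity lie in the image of `𝕜` -/
theorem exp_two_pi_mul_div_mem_kImg (b d : ℤ) (hd : 0 < d) :
    Complex.exp (2 * Real.pi * Complex.I * b / d) ∈ kImg 𝕜 := by
  have hd' : (d.toNat : ℤ) = d := Int.toNat_of_nonneg hd.le
  have hdpos : 0 < d.toNat := by omega
  haveI : NeZero d.toNat := ⟨by omega⟩
  haveI := charZero_k 𝕜
  haveI : NeZero ((d.toNat : ℕ) : 𝕜) := ⟨by exact_mod_cast (NeZero.ne d.toNat)⟩
  have hdc : (d : ℂ) ≠ 0 := by exact_mod_cast hd.ne'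
  have hcast : ((d.toNat : ℕ) : ℂ) = (d : ℂ) := by exact_mod_cast congrArg (Int.cast : ℤ → ℂ) hd'
  obtain ⟨ζ, hζ⟩ := HasEnoughRootsOfUnity.exists_primitiveRoot 𝕜 d.toNat
  have hζ' : IsPrimitiveRoot (algebraMap 𝕜 ℂ ζ) d.toNat :=
    hζ.map_of_injective (algebraMap 𝕜 ℂ).injective
  have hpow : Complex.exp (2 * Real.pi * Complex.I * b / d) ^ d.toNat = 1 := by
    rw [← Complex.exp_nat_mul, hcast]
    have : (d : ℂ) * (2 * Real.pi * Complex.I * b / d) = b * (2 * Real.pi * Complex.I) := by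
      field_simp
    rw [this, Complex.exp_int_mul_two_pi_mul_I]
  obtain ⟨i, -, hi⟩ := hζ'.eq_pow_of_pow_eq_one hpow
  exact ⟨ζ ^ i, by rw [map_pow, hi]⟩

/-- `jMat A` has a Laurent expansion in `q_N` with coefficients in `ℚ̄`, when `det A ∣ N`. -/
theorem isQLaurentable_jMat (N : ℕ) [NeZero N] (A : Matrix (Fin 2) (Fin 2) ℤ) (hA : 0 < A.det)
    (hdvd : A.det ∣ (N : ℤ)) :
    IsQLaurentable N (jMat A hA) ∧ ∀ m : ℤ, (qLaurent N (jMat A hA)).coeff m ∈ (kImg 𝕜) := by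
  obtain ⟨a, b, d, ha, hd, hU, hdet, heq⟩ := jMat_eq_upper A hA
  have hdN : d ∣ (N : ℤ) := Dvd.dvd.trans ⟨a, by rw [hdet]; ring⟩ hdvd
  obtain ⟨k, hk⟩ := hdN
  have hkpos : 0 < k := by
    have hN : (0 : ℤ) < N := by exact_mod_cast Nat.pos_of_ne_zero (NeZero.ne N)
    rw [hk] at hN
    exact (pos_iff_pos_of_mul_pos hN).mp hd
  have he : (((k * a).toNat : ℕ) : ℤ) * d = N * a := by
    rw [Int.toNat_of_nonneg (mul_pos hkpos ha).le, hk]; ring
  rw [heq]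
  exact ⟨(qLaurent_jFun_comp_upper a b d ha hd hU N _ he).1,
    qLaurent_jFun_comp_upper_coeff_mem (kImg 𝕜) a b d ha hd hU N _ he
      (exp_two_pi_mul_div_mem_kImg 𝕜 b d hd)⟩

/-! ### Laurent series with coefficients in a subfield -/

/-! ### The algebra structure and the action of `SL(2, ℤ)` -/

theorem algebraMap_k_fun (c : 𝕜) (τ : ℍ) : algebraMap 𝕜 (ℍ → ℂ) c τ = (algebraMap 𝕜 ℂ) c := rfl

/-- the left action of `SL(2, ℤ)` on functions on `ℍ`: `(γ • f)(τ) = f(γ⁻¹ τ)` -/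
noncomputable def slAct : SL(2, ℤ) →* ((ℍ → ℂ) ≃ₐ[𝕜] (ℍ → ℂ)) where
  toFun γ :=
    { toFun := fun f τ => f (γ⁻¹ • τ)
      invFun := fun f τ => f (γ • τ)
      left_inv := fun f => by funext τ; simp only [inv_smul_smul]
      right_inv := fun f => by funext τ; simp only [smul_inv_smul]
      map_mul' := fun f g => rfl
      map_add' := fun f g => rfl
      commutes' := fun c => rfl }
  map_one' := by
    ext f τ
    show f ((1 : SL(2, ℤ))⁻¹ • τ) = f τ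
    rw [inv_one, one_smul]
  map_mul' γ δ := by
    ext f τ
    show f ((γ * δ)⁻¹ • τ) = f (δ⁻¹ • (γ⁻¹ • τ))
    rw [_root_.mul_inv_rev, mul_smul]

theorem slAct_apply (γ : SL(2, ℤ)) (f : ℍ → ℂ) (τ : ℍ) : slAct 𝕜 γ f τ = f (γ⁻¹ • τ) := rfl

theorem slAct_jMat (γ : SL(2, ℤ)) (A : Matrix (Fin 2) (Fin 2) ℤ) (hA : 0 < A.det) :
    slAct 𝕜 γ (jMat A hA)
      = jMat (A * ((γ⁻¹ : SL(2, ℤ)) : Matrix (Fin 2) (Fin 2) ℤ)) (det_mul_SL_pos hA γ⁻¹) := by
  funext τ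
  rw [slAct_apply 𝕜, jMat_mul_SL]

/-! ### The generators and the ring -/

theorem slAct_jGen (δ : SL(2, ℤ)) (d : ℕ+) (γ : SL(2, ℤ)) :
    slAct 𝕜 δ (jGen d γ) = jGen d (γ * δ⁻¹) := by
  rw [jGen, slAct_jMat 𝕜]
  refine jMat_congr ?_ _ _
  rw [Matrix.SpecialLinearGroup.coe_mul, Matrix.mul_assoc]

variable (N : ℕ) [NeZero N]
/-- the `ℚ̄`-algebra generated by the functions `τ ↦ j(d γ τ)`, `d ∣ N` -/
noncomputable def modRing : Subalgebra 𝕜 (ℍ → ℂ) := Algebra.adjoin 𝕜 (gens N)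

theorem jGen_mem_modRing {d : ℕ+} (hd : (d : ℕ) ∣ N) (γ : SL(2, ℤ)) : jGen d γ ∈ modRing 𝕜 N :=
  Algebra.subset_adjoin ⟨d, hd, γ, rfl⟩

theorem jFun_mem_modRing : jFun ∈ modRing 𝕜 N := by
  rw [← jGen_one_one]
  exact jGen_mem_modRing 𝕜 N (d := 1) (by simp) 1

/-- the basic properties of the elements of `modRing 𝕜 N` -/
theorem modRing_props {f : ℍ → ℂ} (hf : f ∈ modRing 𝕜 N) :
    IsQLaurentable N f ∧ qLaurent N f ∈ ratLS (kImg 𝕜) := by
  induction hf using Algebra.adjoin_induction with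
  | mem f hf =>
    obtain ⟨d, hd, γ, rfl⟩ := hf
    have := isQLaurentable_jMat 𝕜 N _ (det_diagMat_mul_pos d γ)
      (by rw [det_diagMat_mul]; exact_mod_cast hd)
    exact ⟨this.1, this.2⟩
  | algebraMap c =>
    refine ⟨IsQLaurentable.const N ((algebraMap 𝕜 ℂ) c), ?_⟩
    have : (algebraMap 𝕜 (ℍ → ℂ) c) = fun _ => (algebraMap 𝕜 ℂ) c := rfl
    rw [this, Fermat.Agent.ES.qLaurent_const]
    exact C_mem_ratLS ⟨c, rfl⟩
  | add f g _ _ hf hg =>
    refine ⟨hf.1.add hg.1, ?_⟩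
    have : qLaurent N (f + g) = qLaurent N f + qLaurent N g :=
      Fermat.Agent.ES.qLaurent_add hf.1 hg.1
    rw [this]
    exact add_mem hf.2 hg.2
  | mul f g _ _ hf hg =>
    refine ⟨hf.1.mul hg.1, ?_⟩
    have : qLaurent N (f * g) = qLaurent N f * qLaurent N g :=
      Fermat.Agent.ES.qLaurent_mul hf.1 hg.1
    rw [this]
    exact mul_mem hf.2 hg.2

theorem mdiff_of_mem_modRing {f : ℍ → ℂ} (hf : f ∈ modRing 𝕜 N) : MDiff f :=
  (modRing_props 𝕜 N hf).1.mdiff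

theorem slAct_mem_modRing (γ : SL(2, ℤ)) {f : ℍ → ℂ} (hf : f ∈ modRing 𝕜 N) :
    slAct 𝕜 γ f ∈ modRing 𝕜 N := by
  induction hf using Algebra.adjoin_induction with
  | mem f hf =>
    obtain ⟨d, hd, δ, rfl⟩ := hf
    rw [slAct_jGen 𝕜]
    exact jGen_mem_modRing 𝕜 N hd _
  | algebraMap c =>
    rw [AlgEquiv.commutes]
    exact Subalgebra.algebraMap_mem _ c
  | add f g _ _ hf hg => rw [map_add]; exact add_mem hf hg
  | mul f g _ _ hf hg => rw [map_mul]; exact mul_mem hf hg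

/-! ### Invariant elements are polynomials in `j` -/

local notation "Δ" => ModularForm.discriminant

open Fermat.Agent.ES in
/-- **Invariant elements of `modRing 𝕜 N` are polynomials in `j` with coefficients in `ℚ̄`.** -/
theorem modRing_invariant {f : ℍ → ℂ} (hf : f ∈ modRing 𝕜 N)
    (hinv : ∀ (γ : SL(2, ℤ)) (τ : ℍ), f (γ • τ) = f τ) :
    ∃ P : Polynomial 𝕜, ∀ τ, f τ = (P.map (algebraMap 𝕜 ℂ)).eval (jFun τ) := by
  obtain ⟨hq, hrat⟩ := modRing_props 𝕜 N hf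
  -- `f` is `1`-periodic
  have hper : ∀ z : ℍ, f (((1 : ℕ) : ℝ) +ᵥ z) = f z := by
    intro z
    rw [Nat.cast_one, ← UpperHalfPlane.modular_T_smul, hinv]
  have hq1 : IsQLaurentable 1 f := ⟨hq.mdiff, hper, hq.mero⟩
  obtain ⟨m, hm⟩ := hq.mero
  -- rationality of the `q`-expansion
  have hcp := (qLaurent_change_period N hq1).2
  have hrat1 : qLaurent 1 f ∈ ratLS (kImg 𝕜) := by
    intro n
    have := hrat ((N : ℤ) * n)
    rwa [hcp, ModularCurve.qExpand_coeff_mul] at this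
  have hΔnice : IsNice ((1 : ℕ) : ℝ) (Δ : ℍ → ℂ) := isNice_discriminant 1
  have hΔrat : qLaurent 1 (Δ : ℍ → ℂ) ∈ ratLS (kImg 𝕜) := by
    rw [qLaurent_of_nice hΔnice]
    intro n
    rcases lt_or_ge n 0 with hn | hn
    · rw [ModularCurve.ofPowerSeries_coeff_of_neg _ hn]
      exact zero_mem _
    · lift n to ℕ using hn
      rw [HahnSeries.ofPowerSeries_apply_coeff]
      have := ratPS_discriminant (kImg 𝕜) n
      simpa using this
  have hFq : IsQLaurentable 1 (fun τ => f τ * Δ τ ^ m) :=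
    hq1.mul (hΔnice.isQLaurentable.pow m)
  have hFnice : IsNice ((1 : ℕ) : ℝ) (fun τ => f τ * Δ τ ^ m) :=
    ⟨hFq.mdiff, hFq.periodic, hm⟩
  have hFrat : qLaurent 1 (fun τ => f τ * Δ τ ^ m) ∈ ratLS (kImg 𝕜) := by
    have h1 : qLaurent 1 (fun τ => f τ * Δ τ ^ m)
        = qLaurent 1 f * qLaurent 1 (fun τ => Δ τ ^ m) :=
      qLaurent_mul hq1 (hΔnice.isQLaurentable.pow m)
    have h2 : qLaurent 1 (fun τ => Δ τ ^ m) = qLaurent 1 (Δ : ℍ → ℂ) ^ m :=
      qLaurent_pow hΔnice.isQLaurentable m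
    rw [h1, h2]
    exact mul_mem hrat1 (pow_mem hΔrat m)
  have hk : ∀ n, (qExpansion 1 (fun τ => f τ * Δ τ ^ m)).coeff n ∈ (kImg 𝕜) := by
    intro n
    have := hFrat (n : ℤ)
    rw [qLaurent_of_nice hFnice, HahnSeries.ofPowerSeries_apply_coeff] at this
    simpa using this
  obtain ⟨P, -, hPk, hPf⟩ := exists_polynomial_jFun f hq.mdiff hinv m hm (kImg 𝕜) hk
  have hlift : P ∈ Polynomial.lifts (algebraMap 𝕜 ℂ) := by
    rw [Polynomial.lifts_iff_coeff_lifts]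
    intro n
    exact hPk n
  obtain ⟨P', hP'⟩ := (Polynomial.mem_lifts P).mp hlift
  exact ⟨P', fun τ => by rw [hP']; exact hPf τ⟩

end Fermat.Agent.T1.KMod
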