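/-
T1-D (D-a): port of Lib/S24/ModField.lean to a general algebraically closed coefficient field `k ⊆ ℂ`.
-/
import Mathlib
import Fermat.Agent.Lib.T1.Dict.KMod.Ring
import Fermat.Agent.Lib.S24.ModField

set_option autoImplicit false
set_option linter.unusedSectionVars false
set_option linter.style.haveILetI false
set_option linter.unusedVariables false

namespace Fermat.Agent.T1.KMod

open Fermat.Agent.S24Lib

open UpperHalfPlane Filter Topology Matrix MatrixGroups CongruenceSubgroup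
open scoped Manifold
open Fermat.Agent.S22Lib (intGL)
open Fermat.Agent.ES (IsQLaurentable qLaurent)


/-! ### `Γ₀(d)`-invariance of `j(dτ)` -/

/-! ### The ring `modRing 𝕜 N` is a domain; the action of `SL(2, ℤ)` -/

variable (𝕜 : Type) [Field 𝕜] [IsAlgClosed 𝕜] [Algebra 𝕜 ℂ] (N : ℕ) [NeZero N]
/-- the `q_N`-expansion on `modRing 𝕜 N` -/
noncomputable def modRingQL : modRing 𝕜 N →+* LaurentSeries ℂ where
  toFun f := qLaurent N (f : ℍ → ℂ)
  map_one' := by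
    show qLaurent N (fun _ => (1 : ℂ)) = 1
    rw [Fermat.Agent.ES.qLaurent_const]
    rfl
  map_mul' f g := Fermat.Agent.ES.qLaurent_mul (modRing_props 𝕜 N f.2).1 (modRing_props 𝕜 N g.2).1
  map_zero' := by
    show qLaurent N (fun _ => (0 : ℂ)) = 0
    rw [Fermat.Agent.ES.qLaurent_const, map_zero]
  map_add' f g := Fermat.Agent.ES.qLaurent_add (modRing_props 𝕜 N f.2).1 (modRing_props 𝕜 N g.2).1

theorem modRingQL_apply (f : modRing 𝕜 N) : modRingQL 𝕜 N f = qLaurent N (f : ℍ → ℂ) := rfl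

theorem modRingQL_injective : Function.Injective (modRingQL 𝕜 N) := by
  rw [injective_iff_map_eq_zero]
  intro f hf
  apply Subtype.ext
  exact (Fermat.Agent.ES.qLaurent_eq_zero_iff (modRing_props 𝕜 N f.2).1).mp hf

instance : IsDomain (modRing 𝕜 N) := (modRingQL_injective 𝕜 N).isDomain _

/-- the action of `γ ∈ SL(2, ℤ)` on `modRing 𝕜 N` as an algebra homomorphism -/
noncomputable def modActHom (γ : SL(2, ℤ)) : modRing 𝕜 N →ₐ[𝕜] modRing 𝕜 N :=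
  ((slAct 𝕜 γ : (ℍ → ℂ) →ₐ[𝕜] (ℍ → ℂ)).comp (modRing 𝕜 N).val).codRestrict (modRing 𝕜 N)
    (fun f => slAct_mem_modRing 𝕜 N γ f.2)

@[simp]
theorem coe_modActHom (γ : SL(2, ℤ)) (f : modRing 𝕜 N) :
    ((modActHom 𝕜 N γ f : modRing 𝕜 N) : ℍ → ℂ) = slAct 𝕜 γ (f : ℍ → ℂ) := rfl

/-- the action of `SL(2, ℤ)` on `modRing 𝕜 N` -/
noncomputable def modAct : SL(2, ℤ) →* (modRing 𝕜 N ≃ₐ[𝕜] modRing 𝕜 N) where
  toFun γ := AlgEquiv.ofAlgHom (modActHom 𝕜 N γ) (modActHom 𝕜 N γ⁻¹)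
    (by ext f : 2; simp [map_inv])
    (by ext f : 2; simp [map_inv])
  map_one' := by
    ext f : 2
    simp
  map_mul' γ δ := by
    ext f : 2
    simp

@[simp]
theorem coe_modAct (γ : SL(2, ℤ)) (f : modRing 𝕜 N) :
    ((modAct 𝕜 N γ f : modRing 𝕜 N) : ℍ → ℂ) = slAct 𝕜 γ (f : ℍ → ℂ) := rfl

theorem modAct_apply_apply (γ : SL(2, ℤ)) (f : modRing 𝕜 N) (τ : ℍ) :
    (modAct 𝕜 N γ f : ℍ → ℂ) τ = (f : ℍ → ℂ) (γ⁻¹ • τ) := rfl

/-- the element `j` of `modRing 𝕜 N` -/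
noncomputable def jR : modRing 𝕜 N := ⟨jFun, jFun_mem_modRing 𝕜 N⟩

theorem modAct_jR (γ : SL(2, ℤ)) : modAct 𝕜 N γ (jR 𝕜 N) = jR 𝕜 N := by
  apply Subtype.ext
  funext τ
  rw [modAct_apply_apply 𝕜]
  exact jFun_smul γ⁻¹ τ

/-- the generators as elements of `modRing 𝕜 N` -/
noncomputable def jGenR {d : ℕ+} (hd : (d : ℕ) ∣ N) (γ : SL(2, ℤ)) : modRing 𝕜 N :=
  ⟨jGen d γ, jGen_mem_modRing 𝕜 N hd γ⟩

theorem modAct_jGenR (δ : SL(2, ℤ)) {d : ℕ+} (hd : (d : ℕ) ∣ N) (γ : SL(2, ℤ)) :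
    modAct 𝕜 N δ (jGenR 𝕜 N hd γ) = jGenR 𝕜 N hd (γ * δ⁻¹) := by
  apply Subtype.ext
  exact slAct_jGen 𝕜 δ d γ

/-- an algebra endomorphism of `modRing 𝕜 N` fixing the generators is the identity -/
theorem modAct_eq_one_of_gens (γ : SL(2, ℤ))
    (h : ∀ (d : ℕ+) (_ : (d : ℕ) ∣ N) (δ : SL(2, ℤ)), slAct 𝕜 γ (jGen d δ) = jGen d δ) :
    modAct 𝕜 N γ = 1 := by
  ext f : 2
  obtain ⟨f, hf⟩ := f
  show slAct 𝕜 γ f = f
  induction hf using Algebra.adjoin_induction with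
  | mem f hf =>
    obtain ⟨d, hd, δ, rfl⟩ := hf
    exact h d hd δ
  | algebraMap c => exact AlgEquiv.commutes _ c
  | add f g _ _ hf hg => rw [map_add, hf, hg]
  | mul f g _ _ hf hg => rw [map_mul, hf, hg]

theorem Gamma_le_ker_modAct : Gamma N ≤ (modAct 𝕜 N).ker := by
  intro γ hγ
  rw [MonoidHom.mem_ker]
  apply modAct_eq_one_of_gens 𝕜
  intro d hd δ
  rw [slAct_jGen 𝕜]
  have hconj : δ * γ⁻¹ * δ⁻¹ ∈ Gamma N :=
    (Gamma_normal N).conj_mem γ⁻¹ (inv_mem hγ) δ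
  have h0 : δ * γ⁻¹ * δ⁻¹ ∈ Gamma0 d :=
    Gamma0_le_of_dvd hd (Gamma_le_Gamma0' N hconj)
  have := jGen_Gamma0_mul d h0 δ
  rwa [inv_mul_cancel_right] at this

theorem finite_range_modAct : Finite (modAct 𝕜 N).range := by
  haveI : (Gamma N).Normal := Gamma_normal N
  have hsurj : Function.Surjective
      (QuotientGroup.lift (Gamma N) (modAct 𝕜 N).rangeRestrict (fun γ hγ => by
        apply Subtype.ext
        exact (Gamma_le_ker_modAct 𝕜 N hγ))) := by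
    rintro ⟨_, γ, rfl⟩
    exact ⟨QuotientGroup.mk γ, rfl⟩
  haveI : Finite (SL(2, ℤ) ⧸ Gamma N) := Subgroup.finite_quotient_of_finiteIndex
  exact Finite.of_surjective _ hsurj

end Fermat.Agent.T1.KMod
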