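/-
T1-D (D-a): port of Lib/S24/ModFieldDefs.lean to a general algebraically closed coefficient field `k ⊆ ℂ`.
-/
import Mathlib
import Fermat.Agent.Lib.T1.Dict.KMod.Act
import Fermat.Agent.Lib.S24.ModFieldDefs

set_option autoImplicit false
set_option linter.unusedSectionVars false
set_option linter.style.haveILetI false
set_option linter.unusedVariables false

namespace Fermat.Agent.T1.KMod

open Fermat.Agent.S24Lib

open UpperHalfPlane Filter Topology Matrix MatrixGroups CongruenceSubgroup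
open scoped Manifold
open Fermat.Agent.S22Lib (intGL)
open Fermat.Agent.ES (IsQLaurentable qLaurent)


variable (𝕜 : Type) [Field 𝕜] [IsAlgClosed 𝕜] [Algebra 𝕜 ℂ] (N : ℕ) [NeZero N]
/-- the field of modular functions of level `N` with algebraic Fourier coefficients -/
abbrev ModField : Type := FractionRing (modRing 𝕜 N)

/-- the action of `SL(2, ℤ)` on `ModField 𝕜 N` -/
noncomputable def modRep : SL(2, ℤ) →* (ModField 𝕜 N ≃ₐ[𝕜] ModField 𝕜 N) :=
  fracRep (L := ModField 𝕜 N) (modAct 𝕜 N)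

@[simp]
theorem modRep_algebraMap (γ : SL(2, ℤ)) (r : modRing 𝕜 N) :
    modRep 𝕜 N γ (algebraMap (modRing 𝕜 N) (ModField 𝕜 N) r)
      = algebraMap (modRing 𝕜 N) (ModField 𝕜 N) (modAct 𝕜 N γ r) :=
  fracRep_algebraMap (modAct 𝕜 N) γ r

/-- `j` as an element of `ModField 𝕜 N` -/
noncomputable def jL : ModField 𝕜 N := algebraMap (modRing 𝕜 N) (ModField 𝕜 N) (jR 𝕜 N)

/-- the function `τ ↦ j(d · γ τ)` as an element of `ModField 𝕜 N` -/
noncomputable def jGenL {d : ℕ+} (hd : (d : ℕ) ∣ N) (γ : SL(2, ℤ)) : ModField 𝕜 N :=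
  algebraMap (modRing 𝕜 N) (ModField 𝕜 N) (jGenR 𝕜 N hd γ)

theorem modRep_jL (γ : SL(2, ℤ)) : modRep 𝕜 N γ (jL 𝕜 N) = jL 𝕜 N := by
  rw [jL, modRep_algebraMap 𝕜, modAct_jR 𝕜]

theorem modRep_jGenL (δ : SL(2, ℤ)) {d : ℕ+} (hd : (d : ℕ) ∣ N) (γ : SL(2, ℤ)) :
    modRep 𝕜 N δ (jGenL 𝕜 N hd γ) = jGenL 𝕜 N hd (γ * δ⁻¹) := by
  rw [jGenL, modRep_algebraMap 𝕜, modAct_jGenR 𝕜]
  rfl

/-- the generators `τ ↦ j(dτ)`, `d ∣ N`, of the function field of `X₀(N)` -/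
def anGens : Set (ModField 𝕜 N) := {x | ∃ (d : ℕ+) (hd : (d : ℕ) ∣ N), x = jGenL 𝕜 N hd 1}

/-- the analytic model of the function field of `X₀(N)` over `𝕜` -/
noncomputable def anField : IntermediateField 𝕜 (ModField 𝕜 N) :=
  IntermediateField.adjoin 𝕜 (anGens 𝕜 N)

theorem jGenL_mem_anField {d : ℕ+} (hd : (d : ℕ) ∣ N) : jGenL 𝕜 N hd 1 ∈ anField 𝕜 N :=
  IntermediateField.subset_adjoin _ _ ⟨d, hd, rfl⟩

theorem jGenL_one_one : jGenL 𝕜 N (d := 1) (one_dvd N) 1 = jL 𝕜 N := by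
  unfold jGenL jL
  congr 1
  apply Subtype.ext
  exact jGen_one_one

theorem jL_mem_anField : jL 𝕜 N ∈ anField 𝕜 N := by
  rw [← jGenL_one_one 𝕜]
  exact jGenL_mem_anField 𝕜 N _

end Fermat.Agent.T1.KMod
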