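/-
T1-D (D-a): port of Lib/S24/ModInfty.lean to a general algebraically closed coefficient field `k ⊆ ℂ`.
-/
import Mathlib
import Fermat.Agent.Lib.T1.Dict.KMod.Act
import Fermat.Agent.Lib.S24.ModInfty

set_option autoImplicit false
set_option linter.unusedSectionVars false
set_option linter.style.haveILetI false
set_option linter.unusedVariables false

namespace Fermat.Agent.T1.KMod

open Fermat.Agent.S24Lib
open UpperHalfPlane Matrix MatrixGroups CongruenceSubgroup WithZero
open Fermat.Agent.ES (IsQLaurentable qLaurent)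
attribute [local instance] charZero_k
variable (𝕜 : Type) [Field 𝕜] [IsAlgClosed 𝕜] [Algebra 𝕜 ℂ] (N : ℕ) [NeZero N]
theorem modRingQL_eq_zero_iff {f : modRing 𝕜 N} : modRingQL 𝕜 N f = 0 ↔ f = 0 := by
  constructor
  · intro h
    exact modRingQL_injective 𝕜 N (h.trans (map_zero _).symm)
  · rintro rfl
    exact map_zero _

open Classical in
/-- the valuation at the cusp `∞`: `f ↦ exp (-(order of the q_N-expansion of f))` -/
noncomputable def inftyValuation : Valuation (modRing 𝕜 N) ℤᵐ⁰ where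
  toFun f := if f = 0 then 0 else exp (-(modRingQL 𝕜 N f).order)
  map_zero' := if_pos rfl
  map_one' := by
    rw [if_neg one_ne_zero, map_one, HahnSeries.order_one, neg_zero, exp_zero]
  map_mul' f g := by
    by_cases hf : f = 0
    · simp [hf]
    by_cases hg : g = 0
    · simp [hg]
    rw [if_neg hf, if_neg hg, if_neg (mul_ne_zero hf hg), ← exp_add, map_mul,
      HahnSeries.order_mul ((modRingQL_eq_zero_iff 𝕜 N).not.mpr hf)
        ((modRingQL_eq_zero_iff 𝕜 N).not.mpr hg)]
    congr 1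
    ring
  map_add_le_max' f g := by
    by_cases hf : f = 0
    · simp [hf]
    by_cases hg : g = 0
    · simp [hg]
    by_cases hfg : f + g = 0
    · rw [if_pos hfg]; exact zero_le
    rw [if_neg hf, if_neg hg, if_neg hfg, le_max_iff, exp_le_exp, exp_le_exp, map_add]
    have h1 := HahnSeries.min_order_le_order_add (x := modRingQL 𝕜 N f) (y := modRingQL 𝕜 N g)
      (by rw [← map_add]; exact (modRingQL_eq_zero_iff 𝕜 N).not.mpr hfg)
    rcases min_le_iff.mp h1 with h | h
    · left; omega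
    · right; omega

theorem inftyValuation_apply {f : modRing 𝕜 N} (hf : f ≠ 0) :
    inftyValuation 𝕜 N f = exp (-(modRingQL 𝕜 N f).order) := by
  classical
  show (if f = 0 then 0 else exp (-(modRingQL 𝕜 N f).order)) = _
  rw [if_neg hf]

theorem inftyValuation_eq_zero_iff {f : modRing 𝕜 N} : inftyValuation 𝕜 N f = 0 ↔ f = 0 := by
  constructor
  · intro h
    by_contra hf
    rw [inftyValuation_apply 𝕜 N hf] at h
    exact exp_ne_zero h
  · rintro rfl
    exact map_zero _

theorem modRingQL_algebraMap (c : 𝕜) :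
    modRingQL 𝕜 N (algebraMap 𝕜 (modRing 𝕜 N) c) = HahnSeries.C ((algebraMap 𝕜 ℂ) c) := by
  rw [modRingQL_apply 𝕜]
  have : ((algebraMap 𝕜 (modRing 𝕜 N) c : modRing 𝕜 N) : ℍ → ℂ) = fun _ => (algebraMap 𝕜 ℂ) c := rfl
  rw [this, Fermat.Agent.ES.qLaurent_const]

theorem inftyValuation_algebraMap_le_one (c : 𝕜) :
    inftyValuation 𝕜 N (algebraMap 𝕜 (modRing 𝕜 N) c) ≤ 1 := by
  by_cases hc : algebraMap 𝕜 (modRing 𝕜 N) c = 0
  · rw [hc, map_zero]; exact zero_le
  · rw [inftyValuation_apply 𝕜 N hc, modRingQL_algebraMap 𝕜]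
    have hc' : (algebraMap 𝕜 ℂ) c ≠ 0 := by
      intro h0
      apply hc
      apply (modRingQL_eq_zero_iff 𝕜 N).mp
      rw [modRingQL_algebraMap 𝕜, h0, map_zero]
    rw [HahnSeries.order_C, neg_zero, exp_zero]

/-- `T : τ ↦ τ + 1` preserves the order at `∞` -/
theorem inftyValuation_modAct_T (f : modRing 𝕜 N) :
    inftyValuation 𝕜 N (modAct 𝕜 N ModularGroup.T f) = inftyValuation 𝕜 N f := by
  by_cases hf : f = 0
  · rw [hf, map_zero]
  have hf' : modAct 𝕜 N ModularGroup.T f ≠ 0 := by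
    intro h
    exact hf ((modAct 𝕜 N ModularGroup.T).injective (h.trans (map_zero _).symm))
  rw [inftyValuation_apply 𝕜 N hf, inftyValuation_apply 𝕜 N hf', modRingQL_apply 𝕜, modRingQL_apply 𝕜]
  have hfun : ((modAct 𝕜 N ModularGroup.T f : modRing 𝕜 N) : ℍ → ℂ)
      = fun z => (f : ℍ → ℂ) ((-1 : ℝ) +ᵥ z) := by
    funext z
    rw [modAct_apply_apply 𝕜]
    have := UpperHalfPlane.modular_T_zpow_smul z (-1)
    rw [_root_.zpow_neg_one] at this
    rw [this]
    norm_num
  rw [hfun, Fermat.Agent.ES.qLaurent_vadd_order (modRing_props 𝕜 N f.2).1 (-1)]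

theorem modRingQL_jR : modRingQL 𝕜 N (jR 𝕜 N) = ModularCurve.qExpand ℂ N (ModularCurve.jqModC ℂ) := by
  rw [modRingQL_apply 𝕜]
  show qLaurent N jFun = _
  rw [(Fermat.Agent.ES.qLaurent_change_period N isQLaurentable_jFun).2, qLaurent_jFun]

/-- `j` has a pole of order `N` in the local parameter `q_N = exp(2πiτ/N)` -/
theorem inftyValuation_jR : inftyValuation 𝕜 N (jR 𝕜 N) = exp (N : ℤ) := by
  have h0 : jR 𝕜 N ≠ 0 := by
    intro h
    have h1 := modRingQL_jR 𝕜 N
    rw [h, map_zero] at h1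
    exact ModularCurve.jqModC_ne_zero_of_nontrivial ℂ
      (ModularCurve.qExpand_injective N (h1.symm.trans (map_zero _).symm))
  rw [inftyValuation_apply 𝕜 N h0, modRingQL_jR 𝕜,
    order_qExpand N (ModularCurve.jqModC_ne_zero_of_nontrivial ℂ), order_jqModC]
  congr 1
  ring

end Fermat.Agent.T1.KMod
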