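/-
T1-D (D-a): port of Lib/S24/ModIso_src.lean to a general algebraically closed coefficient field `k ⊆ ℂ`.
-/
import Mathlib
import Fermat.Agent.Lib.T1.Dict.KMod.FieldDefs
import Fermat.Agent.Lib.T1.Dict.KMod.Infty
import Fermat.Agent.Lib.S24.ModIso

set_option autoImplicit false
set_option linter.unusedSectionVars false
set_option linter.style.haveILetI false
set_option linter.unusedVariables false

namespace Fermat.Agent.T1.KMod

open Fermat.Agent.S24Lib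
attribute [local instance] charZero_k

open UpperHalfPlane Matrix MatrixGroups CongruenceSubgroup ModularCurve
open Fermat.Agent.S22Lib (intGL)
open Fermat.Agent.ES (IsQLaurentable qLaurent)


variable (𝕜 : Type) [Field 𝕜] [IsAlgClosed 𝕜] [Algebra 𝕜 ℂ] [Algebra ℚ 𝕜] (N : ℕ) [NeZero N]

/-- the function field of `X₀(N)` over `𝕜`, as a subfield of `LaurentSeries 𝕜` (for `𝕜 = ℚ̄` this
is the Prelude's `modularFunctionFieldBar N`) -/
noncomputable abbrev barField : IntermediateField 𝕜 (LaurentSeries 𝕜) :=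
  laurentBaseChange 𝕜 (modularFunctionFieldFull N)



/-- `j` as an element of the Prelude's function field of `X₀(N)` over `ℚ̄`. -/
noncomputable def jBar : barField 𝕜 N :=
  ⟨jqModC 𝕜, by
    have h : coeffEmb 𝕜 jq = jqModC 𝕜 := map_jqModC (algebraMap ℚ 𝕜)
    rw [← h]
    refine coeffEmb_mem_laurentBaseChange 𝕜 ?_
    have := jqd_mem_full N (one_dvd N)
    rwa [qExpand_one_apply] at this⟩

theorem coe_jBar : ((jBar 𝕜 N : barField 𝕜 N) : LaurentSeries 𝕜) = jqModC 𝕜 := rfl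

theorem coe_jBar' : ((jBar 𝕜 N : barField 𝕜 N) : LaurentSeries 𝕜)
    = coeffEmb 𝕜 jq := (map_jqModC (algebraMap ℚ 𝕜)).symm

/-! ### The `q_N`-expansion on `ModField 𝕜 N` -/

/-- the `q_N`-expansion on the field of modular functions of level `N` -/
noncomputable def modFieldQL : ModField 𝕜 N →+* LaurentSeries ℂ :=
  IsFractionRing.lift (modRingQL_injective 𝕜 N)

@[simp]
theorem modFieldQL_algebraMap (r : modRing 𝕜 N) :
    modFieldQL 𝕜 N (algebraMap (modRing 𝕜 N) (ModField 𝕜 N) r) = modRingQL 𝕜 N r :=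
  IsFractionRing.lift_algebraMap _ _

theorem modFieldQL_injective : Function.Injective (modFieldQL 𝕜 N) := RingHom.injective _

theorem modFieldQL_algebraMap_const (c : 𝕜) :
    modFieldQL 𝕜 N (algebraMap 𝕜 (ModField 𝕜 N) c) = HahnSeries.C ((algebraMap 𝕜 ℂ) c) := by
  rw [IsScalarTower.algebraMap_apply 𝕜 (modRing 𝕜 N) (ModField 𝕜 N), modFieldQL_algebraMap 𝕜,
    modRingQL_algebraMap 𝕜]

theorem modRingQL_jGenR_one {d : ℕ+} (hd : (d : ℕ) ∣ N) :
    modRingQL 𝕜 N (jGenR 𝕜 N hd 1) = qExpand ℂ N (qExpand ℂ d (jqModC ℂ)) := by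
  rw [modRingQL_apply 𝕜]
  show qLaurent N (S24Lib.jGen d 1) = _
  have hU : 0 < (!![(d : ℤ), 0; 0, 1] : Matrix (Fin 2) (Fin 2) ℤ).det := by
    rw [Fermat.Agent.S22Lib.upper_det, mul_one]
    exact_mod_cast d.pos
  have hmat : diagMat d * ((1 : SL(2, ℤ)) : Matrix (Fin 2) (Fin 2) ℤ)
      = !![((d : ℕ) : ℤ), 0; 0, 1] := by
    rw [Matrix.SpecialLinearGroup.coe_one, mul_one]
    rfl
  have h1 : S24Lib.jGen d 1 = fun τ => jFun (intGL !![((d : ℕ) : ℤ), 0; 0, 1] hU • τ) := by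
    rw [S24Lib.jGen, jMat_congr hmat _ hU]
    rfl
  rw [h1]
  have he : (((N * d : ℕ)) : ℤ) * 1 = N * ((d : ℕ) : ℤ) := by push_cast; ring
  obtain ⟨-, h2⟩ := qLaurent_jFun_comp_upper ((d : ℕ) : ℤ) 0 1 (by exact_mod_cast d.pos) one_pos hU
    N (N * d) he
  rw [qExpand_qExpand]
  ext m
  rw [h2 m]
  split_ifs with hdm
  · obtain ⟨k, rfl⟩ := hdm
    have hne : (((N * d : ℕ)) : ℤ) ≠ 0 := by
      exact_mod_cast (Nat.mul_pos (Nat.pos_of_ne_zero (NeZero.ne N)) d.pos).ne'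
    rw [Int.mul_ediv_cancel_left k hne, qExpand_coeff_mul]
    simp
  · rw [qExpand_coeff_of_not_dvd _ _ hdm]

theorem modFieldQL_jGenL_one {d : ℕ+} (hd : (d : ℕ) ∣ N) :
    modFieldQL 𝕜 N (jGenL 𝕜 N hd 1) = qExpand ℂ N (qExpand ℂ d (jqModC ℂ)) := by
  rw [jGenL, modFieldQL_algebraMap 𝕜, modRingQL_jGenR_one 𝕜]

/-! ### The `q_N`-expansion on the Prelude's function field -/

/-- base change of coefficients to `ℂ` followed by `q ↦ q^N` -/
noncomputable def barQLHom : LaurentSeries 𝕜 →+* LaurentSeries ℂ :=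
  (qExpand ℂ N).comp (coeffMap (algebraMap 𝕜 ℂ))

theorem barQLHom_apply (x : LaurentSeries 𝕜) :
    barQLHom 𝕜 N x = qExpand ℂ N (coeffMap (algebraMap 𝕜 ℂ) x) := rfl

theorem barQLHom_injective : Function.Injective (barQLHom 𝕜 N) := RingHom.injective _

theorem barQLHom_algebraMap (c : 𝕜) :
    barQLHom 𝕜 N (algebraMap 𝕜 (LaurentSeries 𝕜) c) = HahnSeries.C ((algebraMap 𝕜 ℂ) c) := by
  rw [barQLHom_apply 𝕜, algebraMap_laurentSeries_eq_single, coeffMap_single, qExpand_single,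
    mul_zero]
  rfl

theorem barQLHom_coeffEmb_jqd (d : ℕ) [NeZero d] :
    barQLHom 𝕜 N (coeffEmb 𝕜 (qExpand ℚ d jq)) = qExpand ℂ N (qExpand ℂ d (jqModC ℂ)) := by
  rw [barQLHom_apply 𝕜, coeffEmb, coeffMap_coeffMap, coeffMap_qExpand]
  have : jq = jqModC ℚ := rfl
  rw [this, coeffMap_jqModC]

/-- the `q_N`-expansion (with complex coefficients) on the Prelude's function field of `X₀(N)` -/
noncomputable def barQL : barField 𝕜 N →+* LaurentSeries ℂ :=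
  (barQLHom 𝕜 N).comp (algebraMap (barField 𝕜 N) (LaurentSeries 𝕜))

theorem barQL_apply (h : barField 𝕜 N) :
    barQL 𝕜 N h = qExpand ℂ N (coeffMap (algebraMap 𝕜 ℂ) (h : LaurentSeries 𝕜)) := rfl

theorem barQL_injective : Function.Injective (barQL 𝕜 N) := RingHom.injective _

/-! ### The two images agree -/

theorem barQLHom_mem_map_anField {x : LaurentSeries 𝕜} (hx : x ∈ barField 𝕜 N) :
    barQLHom 𝕜 N x ∈ (anField 𝕜 N).toSubfield.map (modFieldQL 𝕜 N) := by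
  set S2 : Subfield (LaurentSeries ℂ) := (anField 𝕜 N).toSubfield.map (modFieldQL 𝕜 N) with hS2
  have hconst : ∀ c : 𝕜, HahnSeries.C ((algebraMap 𝕜 ℂ) c) ∈ S2 := fun c =>
    ⟨algebraMap 𝕜 (ModField 𝕜 N) c, (anField 𝕜 N).algebraMap_mem c, modFieldQL_algebraMap_const 𝕜 N c⟩
  rw [mem_laurentBaseChange_iff] at hx
  have hle : Subfield.closure (Set.range (algebraMap 𝕜 (LaurentSeries 𝕜)) ∪
      (⇑(coeffEmb 𝕜) '' (modularFunctionFieldFull N : Set (LaurentSeries ℚ))))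
        ≤ S2.comap (barQLHom 𝕜 N) := by
    rw [Subfield.closure_le]
    rintro y (⟨c, rfl⟩ | ⟨z, hz, rfl⟩)
    · show barQLHom 𝕜 N _ ∈ S2
      rw [barQLHom_algebraMap 𝕜]
      exact hconst c
    · show barQLHom 𝕜 N (coeffEmb 𝕜 z) ∈ S2
      have hz' : z ∈ Subfield.closure (Set.range (algebraMap ℚ (LaurentSeries ℚ)) ∪
          divisorExpansions N) := hz
      have hle2 : Subfield.closure (Set.range (algebraMap ℚ (LaurentSeries ℚ)) ∪
          divisorExpansions N) ≤ S2.comap ((barQLHom 𝕜 N).comp (coeffEmb 𝕜)) := by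
        rw [Subfield.closure_le]
        rintro y (⟨c, rfl⟩ | ⟨d, hne, hd, rfl⟩)
        · show (barQLHom 𝕜 N).comp (coeffEmb 𝕜) (algebraMap ℚ _ c) ∈ S2
          rw [eq_ratCast, map_ratCast]
          exact SubfieldClass.ratCast_mem S2 c
        · haveI := hne
          show barQLHom 𝕜 N (coeffEmb 𝕜 (qExpand ℚ d jq)) ∈ S2
          rw [barQLHom_coeffEmb_jqd 𝕜]
          have hd' : (((⟨d, Nat.pos_of_ne_zero (NeZero.ne d)⟩ : ℕ+) : ℕ)) ∣ N := hd
          exact ⟨jGenL 𝕜 N hd' 1, jGenL_mem_anField 𝕜 N hd', modFieldQL_jGenL_one 𝕜 N hd'⟩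
      exact hle2 hz'
  exact hle hx

theorem modFieldQL_mem_map_bar {y : ModField 𝕜 N} (hy : y ∈ anField 𝕜 N) :
    modFieldQL 𝕜 N y ∈ (barField 𝕜 N).toSubfield.map (barQLHom 𝕜 N) := by
  set S1 : Subfield (LaurentSeries ℂ) := (barField 𝕜 N).toSubfield.map (barQLHom 𝕜 N)
    with hS1
  have hy' : y ∈ Subfield.closure (Set.range (algebraMap 𝕜 (ModField 𝕜 N)) ∪ anGens 𝕜 N) := hy
  have hle : Subfield.closure (Set.range (algebraMap 𝕜 (ModField 𝕜 N)) ∪ anGens 𝕜 N)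
      ≤ S1.comap (modFieldQL 𝕜 N) := by
    rw [Subfield.closure_le]
    rintro z (⟨c, rfl⟩ | ⟨d, hd, rfl⟩)
    · show modFieldQL 𝕜 N _ ∈ S1
      rw [modFieldQL_algebraMap_const 𝕜]
      exact ⟨algebraMap 𝕜 (LaurentSeries 𝕜) c, (barField 𝕜 N).algebraMap_mem c,
        barQLHom_algebraMap 𝕜 N c⟩
    · show modFieldQL 𝕜 N (jGenL 𝕜 N hd 1) ∈ S1
      rw [modFieldQL_jGenL_one 𝕜]
      refine ⟨coeffEmb 𝕜 (qExpand ℚ d jq), ?_, barQLHom_coeffEmb_jqd 𝕜 N d⟩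
      exact coeffEmb_mem_laurentBaseChange 𝕜 (jqd_mem_full N hd)
  exact hle hy'

theorem exists_anField_eq (h : barField 𝕜 N) :
    ∃ y : anField 𝕜 N, modFieldQL 𝕜 N (y : ModField 𝕜 N) = barQL 𝕜 N h := by
  obtain ⟨y, hy, hyh⟩ := barQLHom_mem_map_anField 𝕜 N h.2
  exact ⟨⟨y, hy⟩, hyh⟩

theorem exists_bar_eq (y : anField 𝕜 N) :
    ∃ h : barField 𝕜 N, barQL 𝕜 N h = modFieldQL 𝕜 N (y : ModField 𝕜 N) := by
  obtain ⟨x, hx, hxy⟩ := modFieldQL_mem_map_bar 𝕜 N y.2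
  exact ⟨⟨x, hx⟩, hxy⟩

/-! ### The isomorphism -/

/-- the underlying function of the isomorphism -/
noncomputable def isoFun (h : barField 𝕜 N) : anField 𝕜 N :=
  (exists_anField_eq 𝕜 N h).choose

theorem modFieldQL_isoFun (h : barField 𝕜 N) :
    modFieldQL 𝕜 N ((isoFun 𝕜 N h : anField 𝕜 N) : ModField 𝕜 N) = barQL 𝕜 N h :=
  (exists_anField_eq 𝕜 N h).choose_spec

theorem isoFun_eq_iff (h : barField 𝕜 N) (y : anField 𝕜 N) :
    isoFun 𝕜 N h = y ↔ modFieldQL 𝕜 N (y : ModField 𝕜 N) = barQL 𝕜 N h := by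
  constructor
  · rintro rfl
    exact modFieldQL_isoFun 𝕜 N h
  · intro hy
    apply Subtype.ext
    apply modFieldQL_injective 𝕜 N
    rw [modFieldQL_isoFun 𝕜, hy]

/-- the isomorphism as an algebra homomorphism -/
noncomputable def isoHom : barField 𝕜 N →ₐ[𝕜] anField 𝕜 N where
  toFun := isoFun 𝕜 N
  map_one' := by
    rw [isoFun_eq_iff 𝕜]
    simp
  map_mul' a b := by
    rw [isoFun_eq_iff 𝕜]
    show modFieldQL 𝕜 N ((isoFun 𝕜 N a : ModField 𝕜 N) * (isoFun 𝕜 N b : ModField 𝕜 N)) = barQL 𝕜 N (a * b)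
    rw [RingHom.map_mul, RingHom.map_mul, modFieldQL_isoFun 𝕜, modFieldQL_isoFun 𝕜]
  map_zero' := by
    rw [isoFun_eq_iff 𝕜]
    simp
  map_add' a b := by
    rw [isoFun_eq_iff 𝕜]
    show modFieldQL 𝕜 N ((isoFun 𝕜 N a : ModField 𝕜 N) + (isoFun 𝕜 N b : ModField 𝕜 N)) = barQL 𝕜 N (a + b)
    rw [RingHom.map_add, RingHom.map_add, modFieldQL_isoFun 𝕜, modFieldQL_isoFun 𝕜]
  commutes' c := by
    rw [isoFun_eq_iff 𝕜]
    show modFieldQL 𝕜 N (algebraMap 𝕜 (ModField 𝕜 N) c) = barQLHom 𝕜 N (algebraMap 𝕜 _ c)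
    rw [modFieldQL_algebraMap_const 𝕜, barQLHom_algebraMap 𝕜]

theorem isoHom_apply (h : barField 𝕜 N) : isoHom 𝕜 N h = isoFun 𝕜 N h := rfl

theorem isoHom_bijective : Function.Bijective (isoHom 𝕜 N) := by
  refine ⟨(isoHom 𝕜 N).toRingHom.injective, fun y => ?_⟩
  obtain ⟨h, hh⟩ := exists_bar_eq 𝕜 N y
  exact ⟨h, (isoFun_eq_iff 𝕜 N h y).mpr hh.symm⟩

/-- **The Prelude's function field of `X₀(N)` over `ℚ̄` is the analytic model `anField 𝕜 N`.** -/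
noncomputable def modIso : barField 𝕜 N ≃ₐ[𝕜] anField 𝕜 N :=
  AlgEquiv.ofBijective (isoHom 𝕜 N) (isoHom_bijective 𝕜 N)

/-- compatibility of the isomorphism with `q_N`-expansions -/
theorem modFieldQL_modIso (h : barField 𝕜 N) :
    modFieldQL 𝕜 N ((modIso 𝕜 N h : anField 𝕜 N) : ModField 𝕜 N)
      = qExpand ℂ N (coeffMap (algebraMap 𝕜 ℂ) (h : LaurentSeries 𝕜)) :=
  modFieldQL_isoFun 𝕜 N h

theorem modIso_jBar : ((modIso 𝕜 N (jBar 𝕜 N) : anField 𝕜 N) : ModField 𝕜 N) = jL 𝕜 N := by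
  apply modFieldQL_injective 𝕜 N
  rw [modFieldQL_modIso 𝕜, coe_jBar 𝕜, coeffMap_jqModC, jL, modFieldQL_algebraMap 𝕜, modRingQL_jR 𝕜]

theorem exists_algEquiv_anField :
    ∃ Ψ : barField 𝕜 N ≃ₐ[𝕜] anField 𝕜 N,
      ((Ψ (jBar 𝕜 N) : anField 𝕜 N) : ModField 𝕜 N) = jL 𝕜 N :=
  ⟨modIso 𝕜 N, modIso_jBar 𝕜 N⟩

end Fermat.Agent.T1.KMod
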