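/-
T1-D (D-a): port of Lib/S24/ModGalois.lean to a general algebraically closed coefficient field `k ⊆ ℂ`.
-/
import Mathlib
import Fermat.Agent.Lib.T1.Dict.KMod.FieldDefs
import Fermat.Agent.Lib.S24.ModGalois

set_option autoImplicit false
set_option linter.unusedSectionVars false
set_option linter.style.haveILetI false
set_option linter.unusedVariables false

namespace Fermat.Agent.T1.KMod

open Fermat.Agent.S24Lib
attribute [local instance] charZero_k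

open UpperHalfPlane Filter Topology Matrix MatrixGroups CongruenceSubgroup
open scoped Manifold
open Fermat.Agent.S22Lib (intGL)
open Fermat.Agent.ES (IsQLaurentable qLaurent)


variable (𝕜 : Type) [Field 𝕜] [IsAlgClosed 𝕜] [Algebra 𝕜 ℂ] (N : ℕ) [NeZero N]
/-- evaluation of a polynomial in `j` inside `modRing 𝕜 N` -/
theorem aeval_jR_apply (P : Polynomial 𝕜) (τ : ℍ) :
    ((Polynomial.aeval (jR 𝕜 N) P : modRing 𝕜 N) : ℍ → ℂ) τ = (P.map (algebraMap 𝕜 ℂ)).eval (jFun τ) := by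
  have h1 : ((Polynomial.aeval (jR 𝕜 N) P : modRing 𝕜 N) : ℍ → ℂ)
      = Polynomial.aeval (jFun : ℍ → ℂ) P :=
    Polynomial.aeval_subalgebra_coe P (modRing 𝕜 N) (jR 𝕜 N)
  rw [h1]
  have h2 := Polynomial.aeval_algHom_apply (Pi.evalAlgHom 𝕜 (fun _ : ℍ => ℂ) τ)
    (jFun : ℍ → ℂ) P
  have h3 : (Pi.evalAlgHom 𝕜 (fun _ : ℍ => ℂ) τ) (Polynomial.aeval (jFun : ℍ → ℂ) P)
      = (Polynomial.aeval (jFun : ℍ → ℂ) P) τ := rfl
  rw [← h3, ← h2]
  rw [Polynomial.aeval_def, Polynomial.eval₂_eq_eval_map]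
  rfl

/-- invariant elements of `modRing 𝕜 N` are polynomials in `j` -/
theorem mem_adjoin_jR_of_invariant (h : modRing 𝕜 N) (hinv : ∀ γ, modAct 𝕜 N γ h = h) :
    h ∈ Algebra.adjoin 𝕜 {jR 𝕜 N} := by
  obtain ⟨P, hP⟩ := modRing_invariant 𝕜 N h.2 (fun γ τ => by
    have h1 : (modAct 𝕜 N γ⁻¹ h : ℍ → ℂ) τ = (h : ℍ → ℂ) τ := by rw [hinv]
    rw [modAct_apply_apply 𝕜, inv_inv] at h1
    exact h1)
  have : h = Polynomial.aeval (jR 𝕜 N) P := by
    apply Subtype.ext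
    funext τ
    rw [hP τ, aeval_jR_apply 𝕜]
  rw [this]
  exact Polynomial.aeval_mem_adjoin_singleton _ _

theorem finite_range_modRep : Finite (modRep 𝕜 N).range := by
  haveI := finite_range_modAct 𝕜 N
  have hsurj : Function.Surjective (fun x : (modAct 𝕜 N).range =>
      (⟨fracAlgEquivHom (L := ModField 𝕜 N) x.1, by
        obtain ⟨γ, hγ⟩ := x.2
        exact ⟨γ, by rw [← hγ]; rfl⟩⟩ : (modRep 𝕜 N).range)) := by
    rintro ⟨_, γ, rfl⟩
    exact ⟨⟨modAct 𝕜 N γ, γ, rfl⟩, rfl⟩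
  exact Finite.of_surjective _ hsurj

/-- the fixed field of `SL(2, ℤ)` on `ModField 𝕜 N` is `ℚ̄(j)` -/
theorem fixedField_modRep :
    IntermediateField.fixedField (modRep 𝕜 N).range = IntermediateField.adjoin 𝕜 {jL 𝕜 N} :=
  fixedField_fracRep_range (L := ModField 𝕜 N) (modAct 𝕜 N) (finite_range_modAct 𝕜 N) (jR 𝕜 N)
    (modAct_jR 𝕜 N) (mem_adjoin_jR_of_invariant 𝕜 N)

theorem transcendental_jR : Transcendental 𝕜 (jR 𝕜 N) := by
  rw [Transcendental]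
  intro hP
  obtain ⟨P, hP0, hP⟩ := hP
  apply hP0
  have h1 : ∀ z : ℂ, (P.map (algebraMap 𝕜 ℂ)).eval z = 0 := by
    intro z
    obtain ⟨τ, rfl⟩ := jFun_surjective z
    rw [← aeval_jR_apply 𝕜 N P τ, hP]
    rfl
  have h2 : P.map (algebraMap 𝕜 ℂ) = 0 := Polynomial.funext (fun z => by rw [h1 z, Polynomial.eval_zero])
  exact (Polynomial.map_eq_zero_iff (algebraMap 𝕜 ℂ).injective).mp h2

theorem transcendental_jL : Transcendental 𝕜 (jL 𝕜 N) := by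
  unfold jL
  rw [transcendental_algebraMap_iff (IsFractionRing.injective (modRing 𝕜 N) (ModField 𝕜 N))]
  exact transcendental_jR 𝕜 N

/-- distinctness: `j(N·γτ) = j(Nτ)` identically forces `γ ∈ Γ₀(N)` -/
theorem mem_Gamma0_of_jGenL_eq (γ : SL(2, ℤ))
    (h : jGenL 𝕜 N (pnatN_dvd N) γ = jGenL 𝕜 N (pnatN_dvd N) 1) : γ ∈ Gamma0 N := by
  have hN : 0 < N := Nat.pos_of_ne_zero (NeZero.ne N)
  have h1 : jGenR 𝕜 N (pnatN_dvd N) γ = jGenR 𝕜 N (pnatN_dvd N) 1 :=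
    IsFractionRing.injective (modRing 𝕜 N) (ModField 𝕜 N) h
  have h2 : jGen (pnatN N) γ = jGen (pnatN N) 1 := congrArg Subtype.val h1
  have hdet : 0 < (!![(N : ℤ), 0; 0, 1] : Matrix (Fin 2) (Fin 2) ℤ).det := diagN_det_pos N hN
  refine mem_Gamma0_of_jFun_comp_eq N hN hdet γ (fun τ => ?_)
  have h3 := congrFun h2 τ
  have hA : 0 < (diagMat ((pnatN N : ℕ+) : ℕ)).det := by
    rw [diagMat_det]; exact_mod_cast hN
  have e1 : jGen (pnatN N) γ τ = jMat (diagMat ((pnatN N : ℕ+) : ℕ)) hA (γ • τ) :=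
    jMat_mul_SL _ hA γ τ
  have e2 : jGen (pnatN N) 1 τ = jMat (diagMat ((pnatN N : ℕ+) : ℕ)) hA ((1 : SL(2, ℤ)) • τ) :=
    jMat_mul_SL _ hA 1 τ
  rw [e1, e2, one_smul] at h3
  exact h3

/-- the kernel of the action on `ModField 𝕜 N` is contained in `Γ₀(N)` -/
theorem ker_modRep_le_Gamma0 : (modRep 𝕜 N).ker ≤ Gamma0 N := by
  intro γ hγ
  have hγ' : modRep 𝕜 N γ⁻¹ = 1 := by
    rw [map_inv, MonoidHom.mem_ker.mp hγ, inv_one]
  apply mem_Gamma0_of_jGenL_eq 𝕜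
  have := modRep_jGenL 𝕜 N γ⁻¹ (pnatN_dvd N) 1
  rw [hγ', inv_inv, one_mul] at this
  exact this.symm

/-- the analytic function field of `X₀(N)` is the fixed field of `Γ₀(N)` -/
theorem anField_eq_fixedField :
    anField 𝕜 N = IntermediateField.fixedField ((Gamma0 N).map (modRep 𝕜 N)) := by
  unfold anField
  refine adjoin_eq_fixedField_map (modRep 𝕜 N) (finite_range_modRep 𝕜 N) (Gamma0 N) (anGens 𝕜 N)
    ?_ ?_ ?_
  · rintro γ hγ _ ⟨d, hd, rfl⟩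
    rw [modRep_jGenL 𝕜, one_mul]
    have h0 : γ⁻¹ ∈ Gamma0 d := Gamma0_le_of_dvd hd (inv_mem hγ)
    have h1 := jGen_Gamma0_mul d h0 1
    rw [mul_one] at h1
    have h2 : jGenR 𝕜 N hd γ⁻¹ = jGenR 𝕜 N hd 1 := Subtype.ext h1
    unfold jGenL
    rw [h2]
  · intro γ hγ
    have h1 := hγ _ ⟨pnatN N, pnatN_dvd N, rfl⟩
    rw [modRep_jGenL 𝕜, one_mul] at h1
    have := mem_Gamma0_of_jGenL_eq 𝕜 N γ⁻¹ h1
    simpa using inv_mem this
  · rw [fixedField_modRep 𝕜, IntermediateField.adjoin_le_iff, Set.singleton_subset_iff]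
    exact jL_mem_anField 𝕜 N

end Fermat.Agent.T1.KMod
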