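/-
T1-D (D-a): port of Lib/S24/ModPoints.lean to a general algebraically closed coefficient field `k ⊆ ℂ`.
-/
import Mathlib
import Fermat.Agent.Lib.T1.Dict.KMod.Galois
import Fermat.Agent.Lib.S24.ModPoints

set_option autoImplicit false
set_option linter.unusedSectionVars false
set_option linter.style.haveILetI false
set_option linter.unusedVariables false

namespace Fermat.Agent.T1.KMod

open Fermat.Agent.S24Lib
attribute [local instance] charZero_k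

open UpperHalfPlane Filter Topology Matrix MatrixGroups CongruenceSubgroup WithZero
open scoped Manifold
open AlgebraicCurve Fermat.Agent.Curve


variable (𝕜 : Type) [Field 𝕜] [IsAlgClosed 𝕜] [Algebra 𝕜 ℂ] (N : ℕ) [NeZero N]
/-- the inclusion of `modRing 𝕜 N` into the ring of holomorphic functions -/
noncomputable def modRingToHol : modRing 𝕜 N →+* holH where
  toFun f := ⟨f, mdiff_of_mem_modRing 𝕜 N f.2⟩
  map_one' := rfl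
  map_mul' _ _ := rfl
  map_zero' := rfl
  map_add' _ _ := rfl

theorem modRingToHol_injective : Function.Injective (modRingToHol 𝕜 N) := by
  intro f g h
  apply Subtype.ext
  exact congrArg (fun x : holH => (x : ℍ → ℂ)) h

/-- the order of vanishing at `τ₀` as a valuation on `modRing 𝕜 N` -/
noncomputable def pointValuation (τ₀ : ℍ) : Valuation (modRing 𝕜 N) ℤᵐ⁰ :=
  (ordValuation τ₀).comap (modRingToHol 𝕜 N)

theorem pointValuation_apply (τ₀ : ℍ) {f : modRing 𝕜 N} (hf : f ≠ 0) :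
    pointValuation 𝕜 N τ₀ f = exp (-((ordAt (f : ℍ → ℂ) τ₀).toNat : ℤ)) := by
  have h : modRingToHol 𝕜 N f ≠ 0 := by
    intro h0
    exact hf (modRingToHol_injective 𝕜 N (h0.trans (map_zero _).symm))
  show ordValuation τ₀ (modRingToHol 𝕜 N f) = _
  rw [ordValuation_apply h]
  rfl

theorem pointValuation_eq_zero (τ₀ : ℍ) (f : modRing 𝕜 N) (h : pointValuation 𝕜 N τ₀ f = 0) :
    f = 0 := by
  have h1 : ordValuation τ₀ (modRingToHol 𝕜 N f) = 0 := h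
  rw [ordValuation_eq_zero_iff] at h1
  exact modRingToHol_injective 𝕜 N (h1.trans (map_zero _).symm)

theorem pointValuation_algebraMap_le_one (τ₀ : ℍ) (c : 𝕜) :
    pointValuation 𝕜 N τ₀ (algebraMap 𝕜 (modRing 𝕜 N) c) ≤ 1 := by
  by_cases hc : c = 0
  · rw [hc, map_zero, map_zero]
    exact zero_le
  have hne : algebraMap 𝕜 (modRing 𝕜 N) c ≠ 0 := by
    rw [Ne, map_eq_zero_iff _ (algebraMap 𝕜 (modRing 𝕜 N)).injective]
    exact hc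
  rw [pointValuation_apply 𝕜 N τ₀ hne]
  have h1 : ((algebraMap 𝕜 (modRing 𝕜 N) c : modRing 𝕜 N) : ℍ → ℂ) = fun _ => (algebraMap 𝕜 ℂ) c := rfl
  rw [h1, ordAt_const ((map_ne_zero (algebraMap 𝕜 ℂ)).mpr hc)]
  simp

/-- the valuation at a fixed point of `γ` is `γ`-invariant -/
theorem pointValuation_modAct (τ₀ : ℍ) {γ : SL(2, ℤ)} (hγ : γ • τ₀ = τ₀) (f : modRing 𝕜 N) :
    pointValuation 𝕜 N τ₀ (modAct 𝕜 N γ f) = pointValuation 𝕜 N τ₀ f := by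
  by_cases hf : f = 0
  · rw [hf, map_zero]
  have hf' : modAct 𝕜 N γ f ≠ 0 := by
    rw [Ne, map_eq_zero_iff _ (modAct 𝕜 N γ).injective]
    exact hf
  rw [pointValuation_apply 𝕜 N τ₀ hf, pointValuation_apply 𝕜 N τ₀ hf']
  have h1 : ((modAct 𝕜 N γ f : modRing 𝕜 N) : ℍ → ℂ) = fun z => (f : ℍ → ℂ) (γ⁻¹ • z) := rfl
  have h2 : γ⁻¹ • τ₀ = τ₀ := by
    rw [inv_smul_eq_iff, hγ]
  rw [h1, ordAt_comp_smul, h2]

/-- the element `j - a` of `modRing 𝕜 N` -/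
noncomputable def jSubR (a : 𝕜) : modRing 𝕜 N := jR 𝕜 N - algebraMap 𝕜 (modRing 𝕜 N) a

theorem jSubR_ne_zero (a : 𝕜) : jSubR 𝕜 N a ≠ 0 := by
  intro h
  have h1 : jR 𝕜 N = algebraMap 𝕜 (modRing 𝕜 N) a := sub_eq_zero.mp h
  exact transcendental_jR 𝕜 N (h1 ▸ isAlgebraic_algebraMap a)

theorem coe_jSubR (a : 𝕜) : ((jSubR 𝕜 N a : modRing 𝕜 N) : ℍ → ℂ) = fun τ => jFun τ - (algebraMap 𝕜 ℂ) a :=
  rfl

theorem algebraMap_jSubR (a : 𝕜) :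
    algebraMap (modRing 𝕜 N) (ModField 𝕜 N) (jSubR 𝕜 N a) = jL 𝕜 N - algebraMap 𝕜 (ModField 𝕜 N) a := by
  rw [jSubR, map_sub, ← IsScalarTower.algebraMap_apply]
  rfl

theorem ordAt_jSubR_pos (τ₀ : ℍ) (a : 𝕜) (ha : (algebraMap 𝕜 ℂ) a = jFun τ₀) :
    ordAt ((jSubR 𝕜 N a : modRing 𝕜 N) : ℍ → ℂ) τ₀ ≠ 0 := by
  rw [Ne, ordAt_eq_zero_iff (mdiff_of_mem_modRing 𝕜 N (jSubR 𝕜 N a).2), coe_jSubR 𝕜]
  simp [ha]

theorem pointValuation_jSubR_lt_one (τ₀ : ℍ) (a : 𝕜) (ha : (algebraMap 𝕜 ℂ) a = jFun τ₀) :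
    pointValuation 𝕜 N τ₀ (jSubR 𝕜 N a) < 1 := by
  rw [pointValuation_apply 𝕜 N τ₀ (jSubR_ne_zero 𝕜 N a), ← exp_zero, exp_lt_exp]
  have h1 := ordAt_jSubR_pos 𝕜 N τ₀ a ha
  have h2 : ordAt ((jSubR 𝕜 N a : modRing 𝕜 N) : ℍ → ℂ) τ₀ ≠ ⊤ := by
    rw [Ne, ordAt_eq_top_iff (mdiff_of_mem_modRing 𝕜 N (jSubR 𝕜 N a).2)]
    intro h0
    exact jSubR_ne_zero 𝕜 N a (Subtype.ext h0)
  have h3 : (ordAt ((jSubR 𝕜 N a : modRing 𝕜 N) : ℍ → ℂ) τ₀).toNat ≠ 0 := by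
    rw [Ne, ENat.toNat_eq_zero]
    tauto
  omega

/-- the place of `ModField 𝕜 N` attached to the point `τ₀` (with `j(τ₀) = a ∈ ℚ̄`) -/
noncomputable def pointPlace (τ₀ : ℍ) (a : 𝕜) (ha : (algebraMap 𝕜 ℂ) a = jFun τ₀) :
    Place 𝕜 (ModField 𝕜 N) :=
  fracPlace (L := ModField 𝕜 N) (pointValuation 𝕜 N τ₀) (pointValuation_eq_zero 𝕜 N τ₀)
    (pointValuation_algebraMap_le_one 𝕜 N τ₀) (jSubR 𝕜 N a) (jSubR_ne_zero 𝕜 N a)
    (pointValuation_jSubR_lt_one 𝕜 N τ₀ a ha).ne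

theorem pointPlace_ord_pos (τ₀ : ℍ) (a : 𝕜) (ha : (algebraMap 𝕜 ℂ) a = jFun τ₀) :
    0 < (pointPlace 𝕜 N τ₀ a ha).ord (jL 𝕜 N - algebraMap 𝕜 (ModField 𝕜 N) a) := by
  rw [← algebraMap_jSubR 𝕜]
  exact fracPlace_ord_pos _ _ _ _ _ _ (jSubR_ne_zero 𝕜 N a)
    (pointValuation_jSubR_lt_one 𝕜 N τ₀ a ha)

theorem pointPlace_ord_le (τ₀ : ℍ) (a : 𝕜) (ha : (algebraMap 𝕜 ℂ) a = jFun τ₀) (n : ℕ)
    (hn : ordAt (fun τ => jFun τ - (algebraMap 𝕜 ℂ) a) τ₀ = n) :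
    (pointPlace 𝕜 N τ₀ a ha).ord (jL 𝕜 N - algebraMap 𝕜 (ModField 𝕜 N) a) ≤ n := by
  rw [← algebraMap_jSubR 𝕜]
  refine fracPlace_ord_le _ _ _ _ _ _ (jSubR_ne_zero 𝕜 N a) ?_ (Int.natCast_nonneg n)
  rw [pointValuation_apply 𝕜 N τ₀ (jSubR_ne_zero 𝕜 N a), coe_jSubR 𝕜, hn]
  simp

/-- elements of `SL(2, ℤ)` fixing `τ₀` fix the place attached to `τ₀` -/
theorem modRep_smul_pointPlace (τ₀ : ℍ) (a : 𝕜) (ha : (algebraMap 𝕜 ℂ) a = jFun τ₀)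
    {γ : SL(2, ℤ)} (hγ : γ • τ₀ = τ₀) :
    modRep 𝕜 N γ • pointPlace 𝕜 N τ₀ a ha = pointPlace 𝕜 N τ₀ a ha := by
  refine smul_fracPlace_eq _ _ _ _ _ _ _ (fun f => ?_)
  exact fracValuation_invariant _ _ (modAct 𝕜 N γ) (pointValuation_modAct 𝕜 N τ₀ hγ) f

end Fermat.Agent.T1.KMod
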