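/-
T1-D (D-a): port of Lib/S24/ModStab.lean to a general algebraically closed coefficient field `k ⊆ ℂ`.
-/
import Mathlib
import Fermat.Agent.Lib.T1.Dict.KMod.Points
import Fermat.Agent.Lib.T1.Dict.KMod.Infty
import Fermat.Agent.Lib.S24.ModStab

set_option autoImplicit false
set_option linter.unusedSectionVars false
set_option linter.style.haveILetI false
set_option linter.unusedVariables false

namespace Fermat.Agent.T1.KMod

open Fermat.Agent.S24Lib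
attribute [local instance] charZero_k

open UpperHalfPlane Filter Topology Matrix MatrixGroups CongruenceSubgroup WithZero ModularGroup
open scoped Manifold
open AlgebraicCurve Fermat.Agent.Curve


variable (𝕜 : Type) [Field 𝕜] [IsAlgClosed 𝕜] [Algebra 𝕜 ℂ] (N : ℕ) [NeZero N]
/-! ### The image of `SL(2, ℤ)` -/

theorem modAct_neg (γ : SL(2, ℤ)) : modAct 𝕜 N (-γ) = modAct 𝕜 N γ := by
  ext f : 2
  funext τ
  rw [modAct_apply_apply 𝕜, modAct_apply_apply 𝕜]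
  have h : (-γ)⁻¹ = -γ⁻¹ := by
    rw [inv_neg]
  rw [h, ModularGroup.SL_neg_smul]

theorem modRep_neg (γ : SL(2, ℤ)) : modRep 𝕜 N (-γ) = modRep 𝕜 N γ := by
  show fracAlgEquivHom (L := ModField 𝕜 N) (modAct 𝕜 N (-γ)) = fracAlgEquivHom (modAct 𝕜 N γ)
  rw [modAct_neg 𝕜]

theorem modRep_neg_one : modRep 𝕜 N (-1) = 1 := by
  rw [modRep_neg 𝕜, map_one]

theorem modRep_eq_one_of_mem_Gamma {γ : SL(2, ℤ)} (hγ : γ ∈ Gamma N) : modRep 𝕜 N γ = 1 := by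
  have h := Gamma_le_ker_modAct 𝕜 N hγ
  rw [MonoidHom.mem_ker] at h
  show fracAlgEquivHom (L := ModField 𝕜 N) (modAct 𝕜 N γ) = 1
  rw [h, map_one]

theorem modRep_eq_one_of_level_one (h : N = 1) (γ : SL(2, ℤ)) : modRep 𝕜 N γ = 1 := by
  apply modRep_eq_one_of_mem_Gamma 𝕜
  subst h
  rw [Gamma_one_top]
  exact Subgroup.mem_top γ

theorem mem_Gamma0_of_modRep_eq_one {γ : SL(2, ℤ)} (h : modRep 𝕜 N γ = 1) : γ ∈ Gamma0 N :=
  ker_modRep_le_Gamma0 𝕜 N (MonoidHom.mem_ker.mpr h)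

theorem orderOf_modRep_S (hN : 1 < N) : orderOf (modRep 𝕜 N S) = 2 := by
  haveI : Fact (Nat.Prime 2) := ⟨Nat.prime_two⟩
  refine orderOf_eq_prime ?_ ?_
  · rw [← map_pow, pow_two]
    have : S * S = -1 := by decide
    rw [this, modRep_neg_one 𝕜]
  · intro h
    exact S_notMem_Gamma0 N hN (mem_Gamma0_of_modRep_eq_one 𝕜 N h)

theorem orderOf_modRep_ST (hN : 1 < N) : orderOf (modRep 𝕜 N (S * T)) = 3 := by
  haveI : Fact (Nat.Prime 3) := ⟨Nat.prime_three⟩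
  refine orderOf_eq_prime ?_ ?_
  · rw [← map_pow]
    have : (S * T) ^ 3 = -1 := by decide
    rw [this, modRep_neg_one 𝕜]
  · intro h
    exact ST_notMem_Gamma0 N hN (mem_Gamma0_of_modRep_eq_one 𝕜 N h)

theorem orderOf_modRep_T : orderOf (modRep 𝕜 N T) = N := by
  have hN : 0 < N := Nat.pos_of_ne_zero (NeZero.ne N)
  rw [orderOf_eq_iff hN]
  constructor
  · rw [← map_pow]
    apply modRep_eq_one_of_mem_Gamma 𝕜
    have := ModularGroup_T_pow_mem_Gamma (N : ℤ) (N : ℤ) dvd_rfl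
    rw [Int.natAbs_natCast] at this
    exact_mod_cast this
  · intro m hm hm0 h
    rw [← map_pow] at h
    -- conjugate by `S`
    have h1 : modRep 𝕜 N (S * T ^ m * S⁻¹) = 1 := by
      rw [map_mul, map_mul, h, mul_one, ← map_mul, mul_inv_cancel, map_one]
    have h2 := mem_Gamma0_of_modRep_eq_one 𝕜 N h1
    rw [Gamma0_mem] at h2
    have h3 : (S * T ^ m * S⁻¹) 1 0 = -(m : ℤ) := by
      have h4 : (T ^ m : SL(2, ℤ)) = T ^ (m : ℤ) := (zpow_natCast T m).symm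
      rw [h4]
      exact S_mul_T_zpow_mul_S_inv_apply m
    rw [h3, ZMod.intCast_zmod_eq_zero_iff_dvd] at h2
    have h5 : (N : ℤ) ∣ (m : ℤ) := (dvd_neg).mp h2
    have h6 : N ∣ m := by exact_mod_cast h5
    exact absurd (Nat.le_of_dvd hm0 h6) (not_le.mpr hm)

theorem card_map_zpowers (g : SL(2, ℤ)) :
    Nat.card ((Subgroup.zpowers g).map (modRep 𝕜 N)) = orderOf (modRep 𝕜 N g) := by
  rw [MonoidHom.map_zpowers, Nat.card_zpowers]

theorem finite_map_modRep (Δ : Subgroup SL(2, ℤ)) : Finite (Δ.map (modRep 𝕜 N)) := by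
  haveI := finite_range_modRep 𝕜 N
  exact Finite.of_injective (Subgroup.inclusion (Subgroup.map_le_range (modRep 𝕜 N) Δ))
    (Subgroup.inclusion_injective _)

/-! ### The generators of the fixed field -/

theorem adjoin_jL_sub (a : 𝕜) :
    IntermediateField.adjoin 𝕜 {jL 𝕜 N - algebraMap 𝕜 (ModField 𝕜 N) a}
      = IntermediateField.adjoin 𝕜 {jL 𝕜 N} := by
  apply le_antisymm
  · rw [IntermediateField.adjoin_le_iff, Set.singleton_subset_iff]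
    exact sub_mem (IntermediateField.mem_adjoin_simple_self 𝕜 _)
      (IntermediateField.algebraMap_mem _ a)
  · rw [IntermediateField.adjoin_le_iff, Set.singleton_subset_iff]
    show jL 𝕜 N ∈ IntermediateField.adjoin 𝕜 {jL 𝕜 N - algebraMap 𝕜 (ModField 𝕜 N) a}
    have h := add_mem
      (IntermediateField.mem_adjoin_simple_self 𝕜 (jL 𝕜 N - algebraMap 𝕜 (ModField 𝕜 N) a))
      (IntermediateField.algebraMap_mem
        (IntermediateField.adjoin 𝕜 {jL 𝕜 N - algebraMap 𝕜 (ModField 𝕜 N) a}) a)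
    rwa [sub_add_cancel] at h

theorem transcendental_jL_sub (a : 𝕜) :
    Transcendental 𝕜 (jL 𝕜 N - algebraMap 𝕜 (ModField 𝕜 N) a) := by
  intro h
  apply transcendental_jL 𝕜 N
  have h2 : jL 𝕜 N = (jL 𝕜 N - algebraMap 𝕜 (ModField 𝕜 N) a) + algebraMap 𝕜 (ModField 𝕜 N) a := by
    ring
  rw [h2]
  exact h.add (isAlgebraic_algebraMap a)

theorem fixedField_modRep_sub (a : 𝕜) :
    IntermediateField.fixedField (modRep 𝕜 N).range
      = IntermediateField.adjoin 𝕜 {jL 𝕜 N - algebraMap 𝕜 (ModField 𝕜 N) a} := by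
  rw [adjoin_jL_sub 𝕜, fixedField_modRep 𝕜]

theorem jL_ne_zero : jL 𝕜 N ≠ 0 := by
  intro h
  apply transcendental_jL 𝕜 N
  rw [h]
  exact isAlgebraic_zero

theorem adjoin_jL_inv :
    IntermediateField.adjoin 𝕜 {(jL 𝕜 N)⁻¹} = IntermediateField.adjoin 𝕜 {jL 𝕜 N} := by
  apply le_antisymm
  · rw [IntermediateField.adjoin_le_iff, Set.singleton_subset_iff]
    exact inv_mem (IntermediateField.mem_adjoin_simple_self 𝕜 _)
  · rw [IntermediateField.adjoin_le_iff, Set.singleton_subset_iff]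
    show jL 𝕜 N ∈ IntermediateField.adjoin 𝕜 {(jL 𝕜 N)⁻¹}
    have h := inv_mem (IntermediateField.mem_adjoin_simple_self 𝕜 (jL 𝕜 N)⁻¹)
    rwa [inv_inv] at h

theorem transcendental_jL_inv : Transcendental 𝕜 (jL 𝕜 N)⁻¹ := by
  intro h
  exact transcendental_jL 𝕜 N (IsAlgebraic.inv_iff.mp h)

theorem fixedField_modRep_inv :
    IntermediateField.fixedField (modRep 𝕜 N).range
      = IntermediateField.adjoin 𝕜 {(jL 𝕜 N)⁻¹} := by
  rw [adjoin_jL_inv 𝕜, fixedField_modRep 𝕜]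

/-! ### Comparing the ramification index with the size of a subgroup -/

/-- it suffices to bound the ramification index by the size of `ρ(Δ)` when `N > 1` -/
theorem ord_le_card_map (y : ModField 𝕜 N) (hy : Transcendental 𝕜 y)
    (hfix : IntermediateField.fixedField (modRep 𝕜 N).range = IntermediateField.adjoin 𝕜 {y})
    (v₀ : Place 𝕜 (ModField 𝕜 N)) (hv₀ : 0 < v₀.ord y) (Δ : Subgroup SL(2, ℤ)) (n : ℕ)
    (hn : v₀.ord y ≤ n) (hΔ : 1 < N → n ≤ Nat.card (Δ.map (modRep 𝕜 N))) :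
    v₀.ord y ≤ Nat.card (Δ.map (modRep 𝕜 N)) := by
  haveI := finite_range_modRep 𝕜 N
  haveI := finite_map_modRep 𝕜 N Δ
  rcases Nat.lt_or_ge 1 N with hN | hN
  · exact hn.trans (by exact_mod_cast hΔ hN)
  · have hN1 : N = 1 := le_antisymm hN (Nat.pos_of_ne_zero (NeZero.ne N))
    have hstab := card_stabilizer_eq_ord (modRep 𝕜 N).range y hy hfix v₀ hv₀
    haveI : Subsingleton (modRep 𝕜 N).range := ⟨by
      rintro ⟨_, γ, rfl⟩ ⟨_, δ, rfl⟩
      apply Subtype.ext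
      show modRep 𝕜 N γ = modRep 𝕜 N δ
      rw [modRep_eq_one_of_level_one 𝕜 N hN1 γ, modRep_eq_one_of_level_one 𝕜 N hN1 δ]⟩
    haveI : Subsingleton {g : (modRep 𝕜 N).range // (g : ModField 𝕜 N ≃ₐ[𝕜] ModField 𝕜 N) • v₀ = v₀} :=
      inferInstance
    have h1 : Nat.card {g : (modRep 𝕜 N).range //
        (g : ModField 𝕜 N ≃ₐ[𝕜] ModField 𝕜 N) • v₀ = v₀} ≤ 1 := Finite.card_le_one_iff_subsingleton.mpr
      inferInstance
    have h2 : 0 < Nat.card (Δ.map (modRep 𝕜 N)) := Nat.card_pos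
    rw [← hstab]
    exact_mod_cast h1.trans h2

/-! ### Points of the upper half plane -/

/-- the stabilizer of the place at `τ₀`, given a subgroup `Δ` of the stabilizer of `τ₀` whose
image is at least as large as the order of vanishing of `j - j(τ₀)` -/
theorem pointPlace_stabilizer (τ₀ : ℍ) (a : 𝕜) (ha : (algebraMap 𝕜 ℂ) a = jFun τ₀) (n : ℕ)
    (hn : ordAt (fun τ => jFun τ - (algebraMap 𝕜 ℂ) a) τ₀ = n)
    (Δ : Subgroup SL(2, ℤ)) (hΔ : ∀ δ ∈ Δ, δ • τ₀ = τ₀)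
    (hcard : 1 < N → n ≤ Nat.card (Δ.map (modRep 𝕜 N))) (γ : SL(2, ℤ)) :
    modRep 𝕜 N γ • pointPlace 𝕜 N τ₀ a ha = pointPlace 𝕜 N τ₀ a ha
      ↔ ∃ δ ∈ Δ, modRep 𝕜 N γ = modRep 𝕜 N δ := by
  refine stabilizer_iff (modRep 𝕜 N) (finite_range_modRep 𝕜 N)
    (jL 𝕜 N - algebraMap 𝕜 (ModField 𝕜 N) a) (transcendental_jL_sub 𝕜 N a)
    (fixedField_modRep_sub 𝕜 N a) _ (pointPlace_ord_pos 𝕜 N τ₀ a ha) Δ
    (fun δ hδ => modRep_smul_pointPlace 𝕜 N τ₀ a ha (hΔ δ hδ)) ?_ γ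
  exact ord_le_card_map 𝕜 N _ (transcendental_jL_sub 𝕜 N a) (fixedField_modRep_sub 𝕜 N a) _
    (pointPlace_ord_pos 𝕜 N τ₀ a ha) Δ n (pointPlace_ord_le 𝕜 N τ₀ a ha n hn) hcard

/-! ### The cusp `∞` -/

theorem jR_ne_zero : jR 𝕜 N ≠ 0 := by
  intro h
  apply transcendental_jR 𝕜 N
  rw [h]
  exact isAlgebraic_zero

/-- the place of `ModField 𝕜 N` at the cusp `∞` -/
noncomputable def inftyPlace : Place 𝕜 (ModField 𝕜 N) :=
  fracPlace (L := ModField 𝕜 N) (inftyValuation 𝕜 N) (fun _ h => (inftyValuation_eq_zero_iff 𝕜 N).mp h)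
    (inftyValuation_algebraMap_le_one 𝕜 N) (jR 𝕜 N) (jR_ne_zero 𝕜 N)
    (by rw [inftyValuation_jR 𝕜]; exact exp_natCast_ne_one N)

theorem fracValuation_infty_jL_inv :
    fracValuation (L := ModField 𝕜 N) (inftyValuation 𝕜 N)
      (fun _ h => (inftyValuation_eq_zero_iff 𝕜 N).mp h) (jL 𝕜 N)⁻¹ = exp (-(N : ℤ)) := by
  rw [map_inv₀, jL, fracValuation_algebraMap, inftyValuation_jR 𝕜, WithZero.exp_neg]

theorem inftyPlace_ord_pos : 0 < (inftyPlace 𝕜 N).ord (jL 𝕜 N)⁻¹ := by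
  rw [inftyPlace, fracPlace, placeOfValuation_ord_pos_iff _ _ _ _ (inv_ne_zero (jL_ne_zero 𝕜 N)),
    fracValuation_infty_jL_inv 𝕜, ← exp_zero, exp_lt_exp]
  have : 0 < N := Nat.pos_of_ne_zero (NeZero.ne N)
  omega

theorem inftyPlace_ord_le : (inftyPlace 𝕜 N).ord (jL 𝕜 N)⁻¹ ≤ N := by
  rw [inftyPlace, fracPlace]
  exact placeOfValuation_ord_le _ _ _ _ (inv_ne_zero (jL_ne_zero 𝕜 N))
    (fracValuation_infty_jL_inv 𝕜 N) (Int.natCast_nonneg N)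

theorem modRep_T_smul_inftyPlace : modRep 𝕜 N T • inftyPlace 𝕜 N = inftyPlace 𝕜 N := by
  refine smul_fracPlace_eq _ _ _ _ _ _ _ (fun f => ?_)
  exact fracValuation_invariant _ _ (modAct 𝕜 N T) (inftyValuation_modAct_T 𝕜 N) f

theorem inftyPlace_stabilizer (γ : SL(2, ℤ)) :
    modRep 𝕜 N γ • inftyPlace 𝕜 N = inftyPlace 𝕜 N
      ↔ ∃ δ ∈ Subgroup.zpowers T, modRep 𝕜 N γ = modRep 𝕜 N δ := by
  refine stabilizer_iff (modRep 𝕜 N) (finite_range_modRep 𝕜 N)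
    (jL 𝕜 N)⁻¹ (transcendental_jL_inv 𝕜 N) (fixedField_modRep_inv 𝕜 N) _ (inftyPlace_ord_pos 𝕜 N)
    (Subgroup.zpowers T) ?_ ?_ γ
  · intro δ hδ
    have : Subgroup.zpowers T ≤ (MulAction.stabilizer (ModField 𝕜 N ≃ₐ[𝕜] ModField 𝕜 N)
        (inftyPlace 𝕜 N)).comap (modRep 𝕜 N) := by
      rw [Subgroup.zpowers_le]
      exact modRep_T_smul_inftyPlace 𝕜 N
    exact this hδ
  · rw [card_map_zpowers 𝕜, orderOf_modRep_T 𝕜]
    exact inftyPlace_ord_le 𝕜 N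

/-! ### The four cases -/

theorem iotaC_ofNat : (algebraMap 𝕜 ℂ) 1728 = 1728 := map_ofNat (algebraMap 𝕜 ℂ) 1728

theorem generic_stabilizer (τ₀ : ℍ) (a : 𝕜) (ha : (algebraMap 𝕜 ℂ) a = jFun τ₀) (h0 : a ≠ 0)
    (h1 : a ≠ 1728) (γ : SL(2, ℤ)) :
    modRep 𝕜 N γ • pointPlace 𝕜 N τ₀ a ha = pointPlace 𝕜 N τ₀ a ha
      ↔ ∃ δ ∈ (⊥ : Subgroup SL(2, ℤ)), modRep 𝕜 N γ = modRep 𝕜 N δ := by
  refine pointPlace_stabilizer 𝕜 N τ₀ a ha 1 ?_ ⊥ ?_ ?_ γ
  · rw [ha]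
    refine ordAt_jFun_sub_of_ne τ₀ ?_ ?_
    · rw [← ha, Ne, map_eq_zero]
      exact h0
    · rw [← ha, ← iotaC_ofNat 𝕜]
      exact fun h => h1 ((algebraMap 𝕜 ℂ).injective h)
  · intro δ hδ
    rw [Subgroup.mem_bot.mp hδ, one_smul]
  · intro _
    haveI := finite_map_modRep 𝕜 N ⊥
    exact Nat.card_pos

theorem rho_stabilizer (γ : SL(2, ℤ)) :
    modRep 𝕜 N γ • pointPlace 𝕜 N ellRho 0 (by rw [map_zero, jFun_ellRho])
        = pointPlace 𝕜 N ellRho 0 (by rw [map_zero, jFun_ellRho])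
      ↔ ∃ δ ∈ Subgroup.zpowers (S * T), modRep 𝕜 N γ = modRep 𝕜 N δ := by
  refine pointPlace_stabilizer 𝕜 N ellRho 0 _ 3 ?_ _ (zpowers_smul_eq ST_smul_ellRho) ?_ γ
  · have : (fun τ => jFun τ - (algebraMap 𝕜 ℂ) 0) = jFun := by
      funext τ
      rw [map_zero, sub_zero]
    rw [this]
    exact ordAt_jFun_ellRho
  · intro hN
    rw [card_map_zpowers 𝕜, orderOf_modRep_ST 𝕜 N hN]

theorem I_stabilizer (γ : SL(2, ℤ)) :
    modRep 𝕜 N γ • pointPlace 𝕜 N UpperHalfPlane.I 1728 (by rw [iotaC_ofNat 𝕜, jFun_I])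
        = pointPlace 𝕜 N UpperHalfPlane.I 1728 (by rw [iotaC_ofNat 𝕜, jFun_I])
      ↔ ∃ δ ∈ Subgroup.zpowers S, modRep 𝕜 N γ = modRep 𝕜 N δ := by
  refine pointPlace_stabilizer 𝕜 N UpperHalfPlane.I 1728 _ 2 ?_ _ (zpowers_smul_eq S_smul_I) ?_ γ
  · rw [iotaC_ofNat 𝕜]
    exact ordAt_jFun_sub_I
  · intro hN
    rw [card_map_zpowers 𝕜, orderOf_modRep_S 𝕜 N hN]

end Fermat.Agent.T1.KMod
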