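/-
T1-D (D-a): port of Lib/S24/Count_src.lean to a general algebraically closed coefficient field `k ⊆ ℂ`.
-/
import Mathlib
import Fermat.Agent.Lib.T1.Dict.KMod.Stab
import Fermat.Agent.Lib.T1.Dict.KMod.Iso
import Fermat.Agent.Lib.S24.Count

set_option autoImplicit false
set_option linter.unusedSectionVars false
set_option linter.style.haveILetI false
set_option linter.unusedVariables false

namespace Fermat.Agent.T1.KMod

open Fermat.Agent.S24Lib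
attribute [local instance] charZero_k

open UpperHalfPlane Matrix MatrixGroups CongruenceSubgroup ModularCurve AlgebraicCurve ModularGroup
open Fermat.Agent.Curve


/-! ### Transport of degrees along an isomorphism -/

variable (𝕜 : Type) [Field 𝕜] [IsAlgClosed 𝕜] [Algebra 𝕜 ℂ] [Algebra ℚ 𝕜] (N : ℕ) [NeZero N]
/-- the fixed field of `Γ₀(N)` in `ModField 𝕜 N` -/
noncomputable abbrev gamma0Field : IntermediateField 𝕜 (ModField 𝕜 N) :=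
  IntermediateField.fixedField ((Gamma0 N).map (modRep 𝕜 N))

theorem exists_algEquiv_gamma0Field :
    ∃ Ψ : barField 𝕜 N ≃ₐ[𝕜] gamma0Field 𝕜 N,
      ∀ x, ((Ψ x : gamma0Field 𝕜 N) : ModField 𝕜 N) = jL 𝕜 N ↔ x = jBar 𝕜 N := by
  obtain ⟨Ψ, hΨ⟩ := exists_algEquiv_anField 𝕜 N
  refine ⟨Ψ.trans (IntermediateField.equivOfEq (anField_eq_fixedField 𝕜 N)), fun x => ?_⟩
  have h1 : ∀ y : anField 𝕜 N, ((IntermediateField.equivOfEq (anField_eq_fixedField 𝕜 N) y :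
      gamma0Field 𝕜 N) : ModField 𝕜 N) = (y : ModField 𝕜 N) := fun y => rfl
  rw [AlgEquiv.trans_apply, h1, ← hΨ]
  constructor
  · intro h
    exact Ψ.injective (Subtype.ext h)
  · rintro rfl
    rfl

theorem modRep_fix_of_fixedField {y : ModField 𝕜 N}
    (hy : y ∈ IntermediateField.fixedField (modRep 𝕜 N).range) :
    ∀ g ∈ (Gamma0 N).map (modRep 𝕜 N), g y = y := by
  rintro g ⟨γ, -, rfl⟩
  exact hy ⟨modRep 𝕜 N γ, γ, rfl⟩

/-- the basic counting statement, transported to the Prelude's function field -/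
theorem ncard_of_stabilizer (Ψ : barField 𝕜 N ≃ₐ[𝕜] gamma0Field 𝕜 N)
    (x : barField 𝕜 N) (y : ModField 𝕜 N)
    (hxy : ((Ψ x : gamma0Field 𝕜 N) : ModField 𝕜 N) = y) (hy : Transcendental 𝕜 y)
    (hfix : IntermediateField.fixedField (modRep 𝕜 N).range = IntermediateField.adjoin 𝕜 {y})
    (v₀ : Place 𝕜 (ModField 𝕜 N)) (hv₀ : 0 < v₀.ord y) (Δ : Subgroup SL(2, ℤ))
    (hΔ : ∀ γ : SL(2, ℤ), modRep 𝕜 N γ • v₀ = v₀ ↔ ∃ δ ∈ Δ, modRep 𝕜 N γ = modRep 𝕜 N δ) :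
    {v : Place 𝕜 (barField 𝕜 N) | 0 < v.ord x}.ncard
      = Nat.card (MulAction.orbitRel.Quotient Δ (SL(2, ℤ) ⧸ Gamma0 N)) := by
  have hcount := ncard_places_fixedField (modRep 𝕜 N) (finite_range_modRep 𝕜 N) (Gamma0 N)
    (ker_modRep_le_Gamma0 𝕜 N) y hy hfix v₀ hv₀ Δ hΔ
  rw [← hcount]
  refine (ncard_setOf_place_congr Ψ _ _ (fun v => ?_)).symm
  have h1 : fixedElt ((Gamma0 N).map (modRep 𝕜 N)) y
      (modRep_fix_of_fixedField 𝕜 N (by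
        rw [hfix]; exact IntermediateField.mem_adjoin_simple_self 𝕜 y)) = Ψ x :=
    Subtype.ext hxy.symm
  show 0 < (placeMap Ψ v).ord (fixedElt ((Gamma0 N).map (modRep 𝕜 N)) y _) ↔ 0 < v.ord x
  rw [h1, placeMap_ord]

/-! ### The statements used by the final assembly -/

theorem transcendental_jBar (Ψ : barField 𝕜 N ≃ₐ[𝕜] gamma0Field 𝕜 N)
    (hΨ : ((Ψ (jBar 𝕜 N) : gamma0Field 𝕜 N) : ModField 𝕜 N) = jL 𝕜 N) :
    Transcendental 𝕜 (jBar 𝕜 N) := by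
  intro h
  apply transcendental_jL 𝕜 N
  have h1 : IsAlgebraic 𝕜 (Ψ (jBar 𝕜 N)) := h.algHom Ψ.toAlgHom
  have h2 := h1.algHom (gamma0Field 𝕜 N).val
  rw [← hΨ]
  exact h2

theorem finrank_jBar :
    Module.finrank (IntermediateField.adjoin 𝕜 {jBar 𝕜 N}) (barField 𝕜 N)
      = dedekindPsi N := by
  obtain ⟨Ψ, hΨ⟩ := exists_algEquiv_gamma0Field 𝕜 N
  have hΨj := (hΨ (jBar 𝕜 N)).mpr rfl
  have hfixj : ∀ g ∈ (Gamma0 N).map (modRep 𝕜 N), g (jL 𝕜 N) = jL 𝕜 N :=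
    modRep_fix_of_fixedField 𝕜 N (by
      rw [fixedField_modRep 𝕜]; exact IntermediateField.mem_adjoin_simple_self 𝕜 _)
  have h1 := finrank_adjoin_fixedElt (modRep 𝕜 N) (finite_range_modRep 𝕜 N) (Gamma0 N)
    (ker_modRep_le_Gamma0 𝕜 N) (jL 𝕜 N) (fixedField_modRep 𝕜 N) hfixj
  have h2 : Ψ (jBar 𝕜 N) = fixedElt ((Gamma0 N).map (modRep 𝕜 N)) (jL 𝕜 N) hfixj := Subtype.ext hΨj
  rw [finrank_adjoin_congr Ψ (jBar 𝕜 N), h2, h1, Subgroup.index, card_quotient_Gamma0]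

theorem isFunctionFieldGen_jBar :
    IsFunctionFieldGen 𝕜 (barField 𝕜 N) (jBar 𝕜 N) := by
  obtain ⟨Ψ, hΨ⟩ := exists_algEquiv_gamma0Field 𝕜 N
  refine ⟨transcendental_jBar 𝕜 N Ψ ((hΨ (jBar 𝕜 N)).mpr rfl), ?_⟩
  apply FiniteDimensional.of_finrank_pos
  rw [finrank_jBar 𝕜]
  rw [← card_quotient_Gamma0]
  exact Nat.card_pos

theorem exists_jFun_eq (a : 𝕜) : ∃ τ₀ : ℍ, (algebraMap 𝕜 ℂ) a = jFun τ₀ := by
  obtain ⟨τ₀, h⟩ := jFun_surjective ((algebraMap 𝕜 ℂ) a)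
  exact ⟨τ₀, h.symm⟩

theorem algEquiv_jBar_sub (Ψ : barField 𝕜 N ≃ₐ[𝕜] gamma0Field 𝕜 N)
    (hΨ : ((Ψ (jBar 𝕜 N) : gamma0Field 𝕜 N) : ModField 𝕜 N) = jL 𝕜 N) (a : 𝕜) :
    ((Ψ (jBar 𝕜 N - algebraMap 𝕜 (barField 𝕜 N) a) : gamma0Field 𝕜 N) : ModField 𝕜 N)
      = jL 𝕜 N - algebraMap 𝕜 (ModField 𝕜 N) a := by
  rw [map_sub, AlgEquiv.commutes]
  show ((Ψ (jBar 𝕜 N) : gamma0Field 𝕜 N) : ModField 𝕜 N) - _ = _
  rw [hΨ]
  rfl

end Fermat.Agent.T1.KMod
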